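import Mathlib
import Fermat.Agent.S18.ConstExt.Place
import Fermat.Agent.S18.Places.Dictionary
import Fermat.Agent.S18.Descent.RatData
import Fermat.Agent.S24.FiniteFibres

/-!
# S37 (F'0): a `ℚ̄`-place of `F_K` is determined by its restriction to `F_{L1}`, `L1` a large
enough number field

`Kb = ℚ̄`, `F₀ ⊆ ℚ((q))`, `F_K = laurentBaseChange Kb F₀`, `F_L = laurentBaseChange L F₀` for
`L : IntermediateField ℚ Kb`, `up F₀ : F_L → F_K` (helper26, `S18/ConstExt/Place`).

* `DeterminedOver F₀ L2 P` : `P` is the only place of `F_K` with the given `ord` on (the image of)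
  `F_{L2}`;  `DeterminedOver.mono`, `DeterminedOver.smul` (Galois transport), `.smul_of_map_eq`.
* `exists_finset_determined` : for a place `P` there is a finite `T ⊆ Kb` such that `P` is
  determined over every `L2 ⊇ T`  (generic in `F₀`, given a rational coordinate).
* `exists_galois_field_of_definition` : finitely many places, finitely many prescribed constants
  and finitely many prescribed functions at once, with `L1/ℚ` finite and stable under all `σ` (normal, hence Galois).
* `exists_field_of_definition`, `exists_galois_field_of_definition_modular` : the modular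
  instances `F₀ = modularFunctionFieldFull n`.
-/

set_option autoImplicit false

open HahnSeries AlgebraicCurve ModularCurve IsDedekindDomain IntermediateField

namespace Fermat.Agent.S37.Descent.Rational

open Fermat.Agent.S24 Fermat.Agent.S18.ConstExt Fermat.Agent.S18.Places
open Fermat.Agent.S18.Descent (exists_finset_rat)

local notation "Kb" => AlgebraicClosure ℚ

/-- `ℚ̄/ℚ` is an algebraic closure for the default `ℚ`-algebra structure. -/
theorem isAlgClosure_Kb : IsAlgClosure ℚ Kb := ⟨inferInstance, AlgebraicClosure.isAlgebraic ℚ⟩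

/-- `ℚ̄/ℚ` is normal (for the default `ℚ`-algebra structure). -/
theorem normal_Kb : Normal ℚ Kb := @IsAlgClosure.normal ℚ Kb _ _ _ isAlgClosure_Kb

variable (F₀ : IntermediateField ℚ (LaurentSeries ℚ))

/-- `P` is determined by its orders on the image of `F_{L2}`. -/
def DeterminedOver (L2 : IntermediateField ℚ Kb) (P : Place Kb (laurentBaseChange Kb F₀)) : Prop :=
  ∀ P' : Place Kb (laurentBaseChange Kb F₀),
    (∀ x : laurentBaseChange L2 F₀, P'.ord (up F₀ x) = P.ord (up F₀ x)) → P' = P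

variable {F₀}

/-- Transport of an element of `F_{L2}` along a ring hom `τ : L2 → L3` over `Kb`. -/
theorem exists_up_eq_of_comp {L2 L3 : IntermediateField ℚ Kb} (τ : L2 →+* L3) (σ : Kb →+* Kb)
    (hτ : (algebraMap L3 Kb).comp τ = σ.comp (algebraMap L2 Kb))
    (x : laurentBaseChange L2 F₀) :
    ∃ x' : laurentBaseChange L3 F₀,
      ((up (K := Kb) F₀ x' : laurentBaseChange Kb F₀) : LaurentSeries Kb) =
        coeffMap σ ((up (K := Kb) F₀ x : laurentBaseChange Kb F₀) : LaurentSeries Kb) := by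
  let _ : Algebra L2 L3 := τ.toAlgebra
  have hmem : coeffMap (algebraMap L2 L3) (x : LaurentSeries L2) ∈ laurentBaseChange L3 F₀ :=
    coeffMap_mem_up x.2
  refine ⟨⟨coeffMap (algebraMap L2 L3) (x : LaurentSeries L2), hmem⟩, ?_⟩
  show coeffMap (algebraMap L3 Kb) (coeffMap (algebraMap L2 L3) (x : LaurentSeries L2)) =
    coeffMap σ (coeffMap (algebraMap L2 Kb) (x : LaurentSeries L2))
  rw [coeffMap_coeffMap, coeffMap_coeffMap]
  exact coeffMap_congr hτ _

theorem DeterminedOver.mono {L2 L3 : IntermediateField ℚ Kb} (h : L2 ≤ L3)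
    {P : Place Kb (laurentBaseChange Kb F₀)} (hP : DeterminedOver F₀ L2 P) :
    DeterminedOver F₀ L3 P := by
  intro P' hP'
  apply hP P'
  intro x
  obtain ⟨x', hx'⟩ := exists_up_eq_of_comp (IntermediateField.inclusion h).toRingHom
    (RingHom.id Kb) (by ext c; rfl) x
  rw [coeffMap_id] at hx'
  have hx : up (K := Kb) F₀ x' = up F₀ x := Subtype.ext hx'
  rw [← hx]
  exact hP' _

/-- **Galois transport.** If `P` is determined over `L2` then `σ • P` is determined over `σ(L2)`. -/
theorem DeterminedOver.smul (σ : Kb ≃ₐ[ℚ] Kb) {L2 : IntermediateField ℚ Kb}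
    {P : Place Kb (laurentBaseChange Kb F₀)} (hP : DeterminedOver F₀ L2 P) :
    DeterminedOver F₀ (L2.map (σ : Kb →ₐ[ℚ] Kb)) (arithmeticGalois F₀ σ • P) := by
  set g := arithmeticGalois F₀ σ with hg
  intro P' hP'
  have key : g⁻¹ • P' = P := by
    apply hP
    intro x
    obtain ⟨x', hx'⟩ := exists_up_eq_of_comp
      ((IntermediateField.intermediateFieldMap σ L2 : L2 ≃ₐ[ℚ] L2.map (σ : Kb →ₐ[ℚ] Kb)) :
        L2 →+* L2.map (σ : Kb →ₐ[ℚ] Kb))
      (σ : Kb →+* Kb) (by ext c; rfl) x
    have hx : up (K := Kb) F₀ x' = g • up (K := Kb) F₀ x := Subtype.ext hx'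
    have h1 : (g⁻¹ • P').ord (up (K := Kb) F₀ x) = P'.ord (g • up (K := Kb) F₀ x) := by
      have := SemilinearAut.ord_smul g⁻¹ P' (g • up (K := Kb) F₀ x)
      rwa [inv_smul_smul] at this
    rw [h1, ← hx, hP' x', hx, SemilinearAut.ord_smul]
  rw [← key, smul_inv_smul]

/-- `σ` maps the image of `F_{L2}` onto the image of `F_{σ(L2)}`. -/
theorem exists_up_eq_smul (σ : Kb ≃ₐ[ℚ] Kb) {L2 : IntermediateField ℚ Kb}
    (x : laurentBaseChange L2 F₀) :
    ∃ x' : laurentBaseChange (L2.map (σ : Kb →ₐ[ℚ] Kb)) F₀,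
      up (K := Kb) F₀ x' = arithmeticGalois F₀ σ • up (K := Kb) F₀ x := by
  obtain ⟨x', hx'⟩ := exists_up_eq_of_comp
    ((IntermediateField.intermediateFieldMap σ L2 : L2 ≃ₐ[ℚ] L2.map (σ : Kb →ₐ[ℚ] Kb)) :
      L2 →+* L2.map (σ : Kb →ₐ[ℚ] Kb))
    (σ : Kb →+* Kb) (by ext c; rfl) x
  exact ⟨x', Subtype.ext hx'⟩

/-- For `σ`-stable `L2` the Galois action preserves the image of `F_{L2}` in `F_K`. -/
theorem exists_up_eq_smul_of_map_eq (σ : Kb ≃ₐ[ℚ] Kb) {L2 : IntermediateField ℚ Kb}
    (hL2 : L2.map (σ : Kb →ₐ[ℚ] Kb) = L2) (x : laurentBaseChange L2 F₀) :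
    ∃ x' : laurentBaseChange L2 F₀,
      up (K := Kb) F₀ x' = arithmeticGalois F₀ σ • up (K := Kb) F₀ x := by
  have h := exists_up_eq_smul (F₀ := F₀) σ x
  rwa [hL2] at h

/-- For `L2` stable under `σ` (e.g. `L2/ℚ` normal), "determined over `L2`" is preserved by `σ`. -/
theorem DeterminedOver.smul_of_map_eq (σ : Kb ≃ₐ[ℚ] Kb) {L2 : IntermediateField ℚ Kb}
    (hL2 : L2.map (σ : Kb →ₐ[ℚ] Kb) = L2)
    {P : Place Kb (laurentBaseChange Kb F₀)} (hP : DeterminedOver F₀ L2 P) :
    DeterminedOver F₀ L2 (arithmeticGalois F₀ σ • P) := by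
  have h := hP.smul σ
  rwa [hL2] at h

/-- Finite normal closure inside a normal extension, in `σ`-stable form (general fields, so that
no `ℚ`-algebra instance diamond appears). -/
theorem exists_normal_finite {F L : Type*} [Field F] [Field L] [Algebra F L] [Normal F L]
    (K : IntermediateField F L) [FiniteDimensional F K] :
    ∃ K' : IntermediateField F L, K ≤ K' ∧ FiniteDimensional F K' ∧ Normal F K' ∧
      ∀ σ : L →ₐ[F] L, K'.map σ = K' :=
  ⟨IntermediateField.normalClosure F K L, IntermediateField.le_normalClosure K, inferInstance,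
    inferInstance, IntermediateField.normal_iff_forall_map_eq.mp inferInstance⟩

variable (F₀)

/-- Key step, in a chart: `Y` a coordinate of `F_K` coming from every `F_{L2}`, `P` a place at which
`Y` is regular. -/
theorem exists_finset_determined_of_mem
    (Y : laurentBaseChange Kb F₀) [Fact (Transcendental Kb Y)]
    [FiniteDimensional Kb⟮Y⟯ (laurentBaseChange Kb F₀)]
    (hY : ∀ L2 : IntermediateField ℚ Kb, ∃ x : laurentBaseChange L2 F₀, up F₀ x = Y)
    (P : Place Kb (laurentBaseChange Kb F₀)) (hP : Y ∈ P.toValuationSubring) :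
    ∃ T : Finset Kb, ∀ L2 : IntermediateField ℚ Kb, (↑T : Set Kb) ⊆ (L2 : Set Kb) →
      DeterminedOver F₀ L2 P := by
  classical
  set q := Dictionary.placeEquiv Kb Y ⟨P, hP⟩ with hq
  obtain ⟨G, hG⟩ := (IsNoetherian.noetherian q.asIdeal : q.asIdeal.FG)
  have hT : ∀ z : Bof Kb Y, ∃ T : Finset Kb, ∀ L₁ : IntermediateField ℚ Kb,
      (↑T : Set Kb) ⊆ (L₁ : Set Kb) → ∃ Y₁ ∈ laurentBaseChange L₁ F₀,
        coeffMap (algebraMap L₁ Kb) Y₁ = (((z : laurentBaseChange Kb F₀)) : LaurentSeries Kb) :=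
    fun z => exists_finset_rat F₀ (z : laurentBaseChange Kb F₀).2
  choose Tz hTz using hT
  set T : Finset Kb := G.biUnion Tz with hTdef
  refine ⟨T, ?_⟩
  intro L2 hL2 P' hP'
  have hY0 : Y ≠ 0 := fun h0 =>
    (Fact.out : Transcendental Kb Y) (h0 ▸ isAlgebraic_zero)
  obtain ⟨xY, hxY⟩ := hY L2
  have hP'Y : Y ∈ P'.toValuationSubring := by
    rw [mem_iff_ord_nonneg P' hY0, ← hxY, hP' xY, hxY, ← mem_iff_ord_nonneg P hY0]
    exact hP
  set q' := Dictionary.placeEquiv Kb Y ⟨P', hP'Y⟩ with hq'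
  have hle : q.asIdeal ≤ q'.asIdeal := by
    rw [← hG, Ideal.span_le]
    intro z hz
    have hzq : z ∈ q.asIdeal := by
      rw [← hG]; exact Ideal.subset_span hz
    by_cases hz0 : z = 0
    · rw [hz0]; exact q'.asIdeal.zero_mem
    have h1 := (Dictionary.ord_pos_iff_mem_prime Kb Y P hP z hz0).mpr hzq
    have hsub : (↑(Tz z) : Set Kb) ⊆ (L2 : Set Kb) := by
      intro a ha
      apply hL2
      rw [hTdef, Finset.coe_biUnion]
      exact Set.mem_biUnion hz ha
    obtain ⟨Y₁, hY₁, hY₁z⟩ := hTz z L2 hsub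
    have hup : up (K := Kb) F₀ (⟨Y₁, hY₁⟩ : laurentBaseChange L2 F₀) =
        (z : laurentBaseChange Kb F₀) := Subtype.ext hY₁z
    rw [← hup, ← hP', hup] at h1
    exact (Dictionary.ord_pos_iff_mem_prime Kb Y P' hP'Y z hz0).mp h1
  have heq : q = q' :=
    HeightOneSpectrum.ext (q.isMaximal.eq_of_le q'.isPrime.ne_top hle)
  have h2 := (Dictionary.placeEquiv Kb Y).injective heq
  exact (congrArg Subtype.val h2).symm

/-- The element of `F_L` attached to a rational series `y₀ ∈ F₀`. -/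
noncomputable def ratElt (L : Type*) [Field L] [Algebra ℚ L] {y₀ : LaurentSeries ℚ} (hy₀ : y₀ ∈ F₀) :
    laurentBaseChange L F₀ :=
  ⟨coeffEmb L y₀, coeffEmb_mem_laurentBaseChange L hy₀⟩

theorem up_ratElt (L2 : IntermediateField ℚ Kb) {y₀ : LaurentSeries ℚ} (hy₀ : y₀ ∈ F₀) :
    up (K := Kb) F₀ (ratElt F₀ L2 hy₀) = ratElt F₀ Kb hy₀ :=
  Subtype.ext (coeffMap_coeffEmb_up y₀)

/-- **(F'0), generic finset form.** `y₀ ∈ F₀` a rational coordinate (transcendental over `Kb`, with
`F_K` finite over `Kb(y₀)`): every place of `F_K` is determined by its restriction to `F_{L2}` for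
all `L2` containing a suitable finite set. -/
theorem exists_finset_determined {y₀ : LaurentSeries ℚ} (hy₀ : y₀ ∈ F₀)
    [hy : Fact (Transcendental Kb (ratElt F₀ Kb hy₀))]
    [FiniteDimensional Kb⟮ratElt F₀ Kb hy₀⟯ (laurentBaseChange Kb F₀)]
    (P : Place Kb (laurentBaseChange Kb F₀)) :
    ∃ T : Finset Kb, ∀ L2 : IntermediateField ℚ Kb, (↑T : Set Kb) ⊆ (L2 : Set Kb) →
      DeterminedOver F₀ L2 P := by
  rcases Dictionary.mem_or_inv_mem Kb (ratElt F₀ Kb hy₀) P with h | h
  · exact exists_finset_determined_of_mem F₀ (ratElt F₀ Kb hy₀)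
      (fun L2 => ⟨ratElt F₀ L2 hy₀, up_ratElt F₀ L2 hy₀⟩) P h
  · have := Dictionary.fact_transcendental_inv Kb (ratElt F₀ Kb hy₀)
    have := Dictionary.finiteDimensional_adjoin_inv Kb (ratElt F₀ Kb hy₀)
    exact exists_finset_determined_of_mem F₀ (ratElt F₀ Kb hy₀)⁻¹
      (fun L2 => ⟨(ratElt F₀ L2 hy₀)⁻¹, by rw [map_inv₀, up_ratElt]⟩) P h

/-- The number field generated by a finite set is finite over `ℚ`. -/
theorem finiteDimensional_adjoin_finset (T : Finset Kb) :
    FiniteDimensional ℚ (IntermediateField.adjoin ℚ (T : Set Kb)) := by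
  have halg : Algebra.IsAlgebraic ℚ Kb := AlgebraicClosure.isAlgebraic ℚ
  exact IntermediateField.finiteDimensional_adjoin fun x _ =>
    (Algebra.IsAlgebraic.isAlgebraic x).isIntegral

/-- **(F'0), helper23's shape**, generic in `F₀`. -/
theorem exists_field_of_definition_of_coord {y₀ : LaurentSeries ℚ} (hy₀ : y₀ ∈ F₀)
    [hy : Fact (Transcendental Kb (ratElt F₀ Kb hy₀))]
    [FiniteDimensional Kb⟮ratElt F₀ Kb hy₀⟯ (laurentBaseChange Kb F₀)]
    (P : Place Kb (laurentBaseChange Kb F₀)) :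
    ∃ L1 : IntermediateField ℚ Kb, FiniteDimensional ℚ L1 ∧
      ∀ L2 : IntermediateField ℚ Kb, L1 ≤ L2 → DeterminedOver F₀ L2 P := by
  obtain ⟨T, hT⟩ := exists_finset_determined F₀ hy₀ P
  exact ⟨IntermediateField.adjoin ℚ (T : Set Kb), finiteDimensional_adjoin_finset T,
    fun L2 hL2 => hT L2 ((IntermediateField.subset_adjoin ℚ _).trans hL2)⟩

/-- **(F'0) (a)+(b): finitely many places, prescribed constants and prescribed functions, with
`L1/ℚ` finite and NORMAL.** -/
theorem exists_galois_field_of_definition_of_coord {y₀ : LaurentSeries ℚ} (hy₀ : y₀ ∈ F₀)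
    [hy : Fact (Transcendental Kb (ratElt F₀ Kb hy₀))]
    [FiniteDimensional Kb⟮ratElt F₀ Kb hy₀⟯ (laurentBaseChange Kb F₀)]
    (S : Finset (Place Kb (laurentBaseChange Kb F₀))) (C : Finset Kb)
    (E : Finset (laurentBaseChange Kb F₀)) :
    ∃ L1 : IntermediateField ℚ Kb, FiniteDimensional ℚ L1 ∧
      (∀ σ : Kb →ₐ[ℚ] Kb, L1.map σ = L1) ∧
      (↑C : Set Kb) ⊆ (L1 : Set Kb) ∧
      ∀ L2 : IntermediateField ℚ Kb, L1 ≤ L2 →
        (∀ P ∈ S, DeterminedOver F₀ L2 P) ∧
        (∀ z ∈ E, ∃ x : laurentBaseChange L2 F₀, up F₀ x = z) := by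
  classical
  have h1 : ∀ P : Place Kb (laurentBaseChange Kb F₀), ∃ T : Finset Kb,
      ∀ L2 : IntermediateField ℚ Kb, (↑T : Set Kb) ⊆ (L2 : Set Kb) → DeterminedOver F₀ L2 P :=
    fun P => exists_finset_determined F₀ hy₀ P
  choose TP hTP using h1
  have h2 : ∀ z : laurentBaseChange Kb F₀, ∃ T : Finset Kb, ∀ L₁ : IntermediateField ℚ Kb,
      (↑T : Set Kb) ⊆ (L₁ : Set Kb) → ∃ Y₁ ∈ laurentBaseChange L₁ F₀,
        coeffMap (algebraMap L₁ Kb) Y₁ = (z : LaurentSeries Kb) :=
    fun z => exists_finset_rat F₀ z.2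
  choose TE hTE using h2
  set T : Finset Kb := S.biUnion TP ∪ C ∪ E.biUnion TE with hTdef
  set L0 : IntermediateField ℚ Kb := IntermediateField.adjoin ℚ (T : Set Kb) with hL0
  have hfin0 : FiniteDimensional ℚ L0 := finiteDimensional_adjoin_finset T
  have hnormKb : Normal ℚ Kb := normal_Kb
  obtain ⟨L1, hL01, hfin1, -, hstab⟩ := exists_normal_finite L0
  refine ⟨L1, hfin1, hstab, ?_, ?_⟩
  · intro c hc
    apply hL01
    apply IntermediateField.subset_adjoin
    rw [hTdef]
    simp only [Finset.coe_union, Set.mem_union]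
    exact Or.inl (Or.inr hc)
  · intro L2 hL2
    have hTL2 : (↑T : Set Kb) ⊆ (L2 : Set Kb) := fun a ha =>
      hL2 (hL01 (IntermediateField.subset_adjoin ℚ _ ha))
    refine ⟨fun P hP => hTP P L2 (fun a ha => hTL2 ?_), fun z hz => ?_⟩
    · rw [hTdef]
      simp only [Finset.coe_union, Set.mem_union, Finset.coe_biUnion]
      exact Or.inl (Or.inl (Set.mem_biUnion hP ha))
    · obtain ⟨Y₁, hY₁, hY₁z⟩ := hTE z L2 (fun a ha => hTL2 (by
        rw [hTdef]
        simp only [Finset.coe_union, Set.mem_union, Finset.coe_biUnion]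
        exact Or.inr (Set.mem_biUnion hz ha)))
      exact ⟨⟨Y₁, hY₁⟩, Subtype.ext hY₁z⟩

/-! ### The modular instances -/

section Modular

variable (n : ℕ) [NeZero n]

omit [NeZero n] in
theorem J_eq_ratElt :
    (PlaceAt.J n : BridgeInv.FF n) =
      ratElt (modularFunctionFieldFull n) Kb (jqd_mem_full n (one_dvd n)) := rfl

instance fact_transcendental_ratElt :
    Fact (Transcendental Kb
      (ratElt (modularFunctionFieldFull n) Kb (jqd_mem_full n (one_dvd n)))) :=
  ⟨FiniteFibres.transcendental_J n⟩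

instance finiteDimensional_ratElt :
    FiniteDimensional
      Kb⟮ratElt (modularFunctionFieldFull n) Kb (jqd_mem_full n (one_dvd n))⟯
      (laurentBaseChange Kb (modularFunctionFieldFull n)) :=
  FiniteFibres.finiteDimensional_J n

/-- **(F'0)**, helper23's statement verbatim. -/
theorem exists_field_of_definition (P : Place Kb (modularFunctionFieldBar n)) :
    ∃ L1 : IntermediateField ℚ Kb, FiniteDimensional ℚ L1 ∧
      ∀ L2 : IntermediateField ℚ Kb, L1 ≤ L2 →
        ∀ P' : Place Kb (modularFunctionFieldBar n),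
          (∀ x : laurentBaseChange L2 (modularFunctionFieldFull n),
            P'.ord (up (modularFunctionFieldFull n) x) =
              P.ord (up (modularFunctionFieldFull n) x)) → P' = P :=
  exists_field_of_definition_of_coord (modularFunctionFieldFull n)
    (jqd_mem_full n (one_dvd n)) P

/-- **(F'0) (a)+(b)** at the modular function field. -/
theorem exists_galois_field_of_definition
    (S : Finset (Place Kb (modularFunctionFieldBar n))) (C : Finset Kb)
    (E : Finset (modularFunctionFieldBar n)) :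
    ∃ L1 : IntermediateField ℚ Kb, FiniteDimensional ℚ L1 ∧
      (∀ σ : Kb →ₐ[ℚ] Kb, L1.map σ = L1) ∧
      (↑C : Set Kb) ⊆ (L1 : Set Kb) ∧
      ∀ L2 : IntermediateField ℚ Kb, L1 ≤ L2 →
        (∀ P ∈ S, DeterminedOver (modularFunctionFieldFull n) L2 P) ∧
        (∀ z ∈ E, ∃ x : laurentBaseChange L2 (modularFunctionFieldFull n),
          up (modularFunctionFieldFull n) x = z) :=
  exists_galois_field_of_definition_of_coord (modularFunctionFieldFull n)
    (jqd_mem_full n (one_dvd n)) S C E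

end Modular

end Fermat.Agent.S37.Descent.Rational
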